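import Fermat.Agent.S48.H642.DictGen
import Fermat.Agent.S29.H389.DictKummer

/-!
# Tower A1 / A1-KUM, leaf `k2` — DICT, Kummer-class form, generic (helper642)

GENERIC port of `S29/H389/DictKummer.lean`:

* `hasPrincipalDivisors_gen` : a generic field `P.F = ℚ̄(S)`, finite over `ℚ̄(j)`, has principal
  divisors (`j` is transcendental: its `q`-expansion has a pole);
* `exists_isKummerClass_of_analytic_pow_gen` : in the situation of `dvd_ord_of_analytic_pow_gen`
  the function `f = r / s ∈ P.F` has a `p`-Kummer class in `Pic⁰(P.F)`.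
-/

set_option autoImplicit false
set_option linter.style.haveILetI false
set_option linter.unusedSectionVars false

noncomputable section

open AlgebraicCurve HahnSeries ModularCurve
open scoped MatrixGroups

namespace Fermat.Agent.S48.H642

open Fermat.Agent.S24 Fermat.Agent.S24.H997 Fermat.Agent.S48.H332 Fermat.Agent.S29
  Fermat.Agent.S29.H389

variable {M : ℕ} [NeZero M] {Γ : Subgroup SL(2, ℤ)} {P : GenField}

/-- `j` is not a constant. -/
theorem jF_not_mem_range_gen (P : GenField) : P.jF ∉ (algebraMap Kbar P.F).range := by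
  rintro ⟨c, hc⟩
  have h1 : ((algebraMap Kbar P.F c : P.F) : LaurentSeries Kbar).coeff (-1)
      = ((P.jF : P.F) : LaurentSeries Kbar).coeff (-1) := by rw [hc]
  have h2 : ((algebraMap Kbar P.F c : P.F) : LaurentSeries Kbar)
      = algebraMap Kbar (LaurentSeries Kbar) c := rfl
  rw [h2, algebraMap_laurentSeries_eq_single] at h1
  have h3 : ((P.jF : P.F) : LaurentSeries Kbar) = coeffEmb Kbar jq := rfl
  rw [h3, coeffEmb_coeff, coeff_jq_neg_one, map_one,
    HahnSeries.coeff_single_of_ne (by norm_num)] at h1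
  exact zero_ne_one h1

/-- `j` is transcendental over `ℚ̄`. -/
theorem transcendental_jF_gen (P : GenField) : Transcendental Kbar P.jF :=
  FF.transcendental_of_not_mem_range (jF_not_mem_range_gen P)

/-- A generic field of modular functions, finite over `ℚ̄(j)`, has principal divisors. -/
theorem hasPrincipalDivisors_gen (P : GenField)
    [FiniteDimensional ↥(IntermediateField.adjoin Kbar {P.jF}) P.F] :
    HasPrincipalDivisors Kbar P.F :=
  Fermat.Agent.Lib.RR.H864.hasPrincipalDivisors P.jF (transcendental_jF_gen P)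

/-- **DICT, Kummer form (generic).** -/
theorem exists_isKummerClass_of_analytic_pow_gen (A : GenCore M Γ P)
    (hfd : FiniteDimensional ↥(IntermediateField.adjoin Kbar {P.jF}) P.F)
    (hle : Module.finrank ↥(IntermediateField.adjoin Kbar {P.jF}) P.F ≤ Nat.card (XG Γ))
    (p : ℕ) (hp : p ≠ 0)
    (r s : P.RG) (hr : r ≠ 0) (hs : s ≠ 0) (h₁ h₂ : A.toGenBase.Hol) (hh₁ : h₁ ≠ 0)
    (hh₂ : h₂ ≠ 0) (c : ℂ) (hc : c ≠ 0)
    (hrel : A.toGenBase.bridge r * h₂ ^ p
      = A.toGenBase.constH c * h₁ ^ p * A.toGenBase.bridge s)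
    (hinv : ∀ δ : SL(2, ℤ), δ ∈ Γ → Nice δ →
      A.toGenBase.compH δ h₁ * h₂ = h₁ * A.toGenBase.compH δ h₂) :
    ∃ x : Pic0 Kbar P.F, H455.IsKummerClass (p : ℤ) (P.inclRG r / P.inclRG s) x := by
  have hr' : P.inclRG r ≠ 0 := fun h => hr (P.inclRG_injective (by rw [h, map_zero]))
  have hs' : P.inclRG s ≠ 0 := fun h => hs (P.inclRG_injective (by rw [h, map_zero]))
  have hf : P.inclRG r / P.inclRG s ≠ 0 := div_ne_zero hr' hs'
  haveI := hfd
  haveI := hasPrincipalDivisors_gen P
  obtain ⟨D₀, hD₀, hdeg₀⟩ :=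
    HasPrincipalDivisors.exists_divisor (K := AlgebraicClosure ℚ) (P.inclRG r / P.inclRG s) hf
  obtain ⟨D, hdeg, hD⟩ := exists_divisor_div p hp D₀
    (fun v => by
      rw [hD₀ v]
      exact dvd_ord_of_analytic_pow_gen A hfd hle p r s hr hs h₁ h₂ hh₁ hh₂ c hc hrel hinv v)
    hdeg₀
  refine ⟨Pic0.mk ⟨D, hdeg⟩, hf, ⟨D, hdeg⟩, rfl, fun v => ?_⟩
  rw [hD v, hD₀ v]

end Fermat.Agent.S48.H642
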