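import Fermat.Agent.S48.Kum.Top
import Fermat.Agent.S48.Kum.Basic
import Fermat.Agent.S48.H332.PkgDeg
import Fermat.Agent.S48.H642.DictKum
import Fermat.Agent.S29.H642.K2

/-!
# Tower A1 / A1-KUM — leaf `k2` = `Kum.PieceK2`, GENERIC form (helper642)

`pieceK2_of_genData` : let `D : GenData M Γ' P` be analytic input (helper332, `S48/H332/Pkg*`) for
the field `P.F = ℚ̄(S)` of modular functions for a group `Γ'` of finite index, and let `Γ ≤ Γ'` be
a subgroup of level `M` containing `T` with `Γ' ⊆ ±Γ`.  Then `Kum.PieceK2 Γ P.F p` holds for every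
`p ≠ 0`: if `u ∈ P.F` is realised by `U ^ p`, `U` a twisted function of a character
`c : Γ → ℤ/p` killing parabolic and finite-order elements, then `u` has a `p`-Kummer class in
`Pic⁰(P.F)`.

(Tower A1: `Γ = Γ₁(M)`, `Γ' = ±Γ₁(M)`, `P.F = ℚ̄·F₁(M)`.)

Route: adapter to `exists_isKummerClass_of_analytic_pow_gen` (`DictKum.lean`, generic port of
helper389's DICT) for the core `D.core` (`Hol = holN M`), with degree bound `D.degree_fields`.
-/

set_option autoImplicit false
set_option linter.unusedSectionVars false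
set_option linter.unusedVariables false
set_option linter.style.haveILetI false

noncomputable section

open ModularCurve AlgebraicCurve UpperHalfPlane HahnSeries
open scoped MatrixGroups Manifold Real

namespace Fermat.Agent.S48.H642

open Fermat.Agent.S24 Fermat.Agent.S24.H997 Fermat.Agent.S24.H648 Fermat.Agent.S24.H708
  Fermat.Agent.S29 Fermat.Agent.S48.H332 Fermat.Agent.S48.Kum

variable {M : ℕ} [NeZero M] {Γ Γ' : Subgroup SL(2, ℤ)} {P : GenField} {p : ℕ}

/-! ### Invariance of a twisted function under nice elements -/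

/-- A twisted function of a parabolic character is invariant under every `δ ∈ Γ` with
`c δ = 0`. -/
theorem K2g_invariant_of_char_zero {c : Γ → ZMod p} {U : ℍ → ℂ} (hU : HasChar Γ p c U)
    (γ : Γ) (hγ : c γ = 0) (τ : ℍ) : U ((γ : SL(2, ℤ)) • τ) = U τ := by
  have := hU γ τ
  rw [hγ] at this
  simpa using this

/-- The character vanishes on the nice elements of `±Γ`. -/
theorem K2g_invariant_of_nice {c : Γ → ZMod p} (hc : IsParHom Γ c) {U : ℍ → ℂ}
    (hU : HasChar Γ p c U) {δ : SL(2, ℤ)} (hδ : δ ∈ Γ ∨ -δ ∈ Γ) (hnice : H389.Nice δ)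
    (τ : ℍ) : U (δ • τ) = U τ := by
  rcases hδ with hδ | hδ
  · refine K2g_invariant_of_char_zero hU ⟨δ, hδ⟩ ?_ τ
    rcases hnice with hfin | htr
    · obtain ⟨n, hn, hδn⟩ := isOfFinOrder_iff_pow_eq_one.1 hfin
      exact hc.elliptic ⟨δ, hδ⟩ n hn (Subtype.ext hδn)
    · exact hc.parabolic ⟨δ, hδ⟩ (Or.inl htr)
  · have h1 : δ • τ = (-δ) • τ := by rw [ModularGroup.SL_neg_smul]
    rw [h1]
    refine K2g_invariant_of_char_zero hU ⟨-δ, hδ⟩ ?_ τ
    rcases hnice with hfin | htr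
    · obtain ⟨n, hn, hδn⟩ := isOfFinOrder_iff_pow_eq_one.1 hfin
      refine hc.elliptic ⟨-δ, hδ⟩ (2 * n) (by omega) (Subtype.ext ?_)
      show (-δ) ^ (2 * n) = 1
      rw [pow_mul, neg_sq, ← pow_mul, mul_comm, pow_mul, hδn, one_pow]
    · refine hc.parabolic ⟨-δ, hδ⟩ (Or.inr ?_)
      show ((-δ : SL(2, ℤ)) : Matrix (Fin 2) (Fin 2) ℤ).trace = -2
      rw [Matrix.SpecialLinearGroup.coe_neg, Matrix.trace_neg, htr]

/-! ### `U ∈ holN M` -/

theorem K2g_mem_holN (hp : p ≠ 0)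
    (hlev : ∀ g : SL(2, ℤ), g * ModularGroup.T ^ ((M : ℕ) : ℤ) * g⁻¹ ∈ Γ)
    {c : Γ → ZMod p} (hc : IsParHom Γ c) {U : ℍ → ℂ}
    (hU : IsTwisted Γ p c U) : U ∈ holN M := by
  refine ⟨hU.mdiff, fun g => ?_⟩
  have hol : MDiff (compSL g U) := mdifferentiable_comp_smul hU.mdiff g
  have hvadd : ∀ τ : ℍ, compSL g U ((((M : ℕ) : ℤ) : ℝ) +ᵥ τ) = compSL g U τ := by
    intro τ
    rw [← UpperHalfPlane.modular_T_zpow_smul]
    have h1 : g • (ModularGroup.T ^ ((M : ℕ) : ℤ) • τ)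
        = (g * ModularGroup.T ^ ((M : ℕ) : ℤ) * g⁻¹) • (g • τ) := by
      rw [← mul_smul, ← mul_smul, mul_assoc, mul_assoc, inv_mul_cancel, mul_one]
    simp only [compSL_apply]
    rw [h1]
    exact K2g_invariant_of_char_zero hU.hasChar ⟨_, hlev g⟩
      (hc.parabolic ⟨_, hlev g⟩ (Or.inl (H332.trace_conj_T_zpow g _))) (g • τ)
  have hper : Function.Periodic (compSL g U ∘ ofComplex) (M : ℝ) :=
    H332.periodic_comp_ofComplex_of_vadd hvadd
  have hgr : ExpGrowth (compSL g U) :=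
    H642.K2_expGrowth_of_pow hp (hU.pow_good.2.2 g)
  have hmer : IsMerInf M (compSL g U) := ⟨hol, hper, H642.K2_isBounded_mul_qh_pow hgr⟩
  exact ⟨qexpFun M (compSL g U), fun τ => (HasQExp.of_isMerInf hmer).hasSum τ⟩

/-! ### The expansion of a realisation -/

/-- The expansion at `i∞` in `exp(2πiτ/M)` of a good function realising `u` is `Φ M u`. -/
theorem K2g_infExp_of_realises (hT : ModularGroup.T ∈ Γ) {F : KF} {u : F} {G : ℍ → ℂ}
    (hu : Realises Γ F u G) :
    InfExp M G (HolBase.Φ M ((u : F) : LaurentSeries Kbar)) := by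
  have h1 : HasQExp 1 G (coeffMap Deg457.iotaC ((u : F) : LaurentSeries Kbar)) :=
    hu.hasQExp hT
  have h2 := HasQExp.of_period_mul M h1
  intro τ
  have h3 := HasQExp.hasSum h2 τ
  simp only [one_mul] at h3
  exact h3

/-! ### The piece -/

theorem K2g_one_ne_zero (D : GenData M Γ' P) : (1 : D.core.toGenBase.Hol) ≠ 0 := by
  intro h
  have := congrArg (fun f : D.core.toGenBase.Hol => (f : ℍ → ℂ) UpperHalfPlane.I) h
  simp at this

/-- **Leaf `k2`, generic**: `Kum.PieceK2 Γ P.F p` from analytic input `GenData M Γ' P` for a group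
`Γ'` of finite index with `Γ' ⊆ ±Γ`, `Γ` of level `M` containing `T`. -/
theorem pieceK2_of_genData (D : GenData M Γ' P) [Finite (XG Γ')]
    (hΓ' : ∀ δ : SL(2, ℤ), δ ∈ Γ' → δ ∈ Γ ∨ -δ ∈ Γ)
    (hlev : ∀ g : SL(2, ℤ), g * ModularGroup.T ^ ((M : ℕ) : ℤ) * g⁻¹ ∈ Γ)
    (hT : ModularGroup.T ∈ Γ) (hp : p ≠ 0) : PieceK2 Γ P.F p := by
  classical
  intro c hc U u hU hu
  set B := D.core.toGenBase with hB
  let h₁ : B.Hol := ⟨U, K2g_mem_holN hp hlev hc hU⟩
  have hh₁ : h₁ ≠ 0 := by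
    obtain ⟨τ, hτ⟩ := hU.ne_zero
    intro h0
    apply hτ
    exact congrArg (fun f : B.Hol => (f : ℍ → ℂ) τ) h0
  -- the expansion of `U ^ p`
  have hq : B.qexp (h₁ ^ p) = HolBase.Φ M ((u : P.F) : LaurentSeries Kbar) := by
    have h1 : InfExp M (fun τ => U τ ^ p) (HolBase.Φ M ((u : P.F) : LaurentSeries Kbar)) :=
      K2g_infExp_of_realises hT hu
    have h2 : InfExp M (((h₁ ^ p : B.Hol)) : ℍ → ℂ) (B.qexp (h₁ ^ p)) :=
      D.base_qexp_spec (h₁ ^ p)
    exact h2.unique' h1 (fun τ => rfl)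
  have hqne : B.qexp (h₁ ^ p) ≠ 0 := by
    rw [map_pow]
    refine pow_ne_zero _ ?_
    intro h0
    exact hh₁ (B.qexp_injective (h0.trans (map_zero _).symm))
  have hu0 : u ≠ 0 := by
    intro h0
    apply hqne
    rw [hq, h0]
    simp
  -- `u = r / s`
  obtain ⟨r, s, hs, hrs⟩ := P.exists_div_inclRG u
  have hs' : P.inclRG s ≠ 0 := fun h => hs (P.inclRG_injective (by rw [h, map_zero]))
  have hr : r ≠ 0 := by
    intro h0
    apply hu0
    rw [hrs, h0, map_zero, zero_div]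
  have hmul : ((r : P.RG) : LaurentSeries Kbar)
      = ((u : P.F) : LaurentSeries Kbar) * ((s : P.RG) : LaurentSeries Kbar) := by
    have h1 : (P.inclRG r : P.F) = u * P.inclRG s := by
      rw [hrs, div_mul_cancel₀ _ hs']
    exact congrArg (fun f : P.F => (f : LaurentSeries Kbar)) h1
  have hrel : B.bridge r * (1 : B.Hol) ^ p = B.constH 1 * h₁ ^ p * B.bridge s := by
    apply B.qexp_injective
    have hc1 : B.qexp (B.constH 1) = 1 := by
      have := B.qexp_const 1
      rw [map_one] at this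
      exact this
    rw [one_pow, mul_one, map_mul, map_mul, hq, hc1, one_mul, GenBase.qexp_bridge,
      GenBase.qexp_bridge, ← map_mul, hmul]
  have hinv : ∀ δ : SL(2, ℤ), δ ∈ Γ' → H389.Nice δ →
      B.compH δ h₁ * 1 = h₁ * B.compH δ 1 := by
    intro δ hδ hnice
    have h1 : B.compH δ h₁ = h₁ := by
      apply Subtype.ext
      funext τ
      show U (δ • τ) = U τ
      exact K2g_invariant_of_nice hc hU.hasChar (hΓ' δ hδ) hnice τ
    rw [h1, map_one]
  obtain ⟨x, hx⟩ := exists_isKummerClass_of_analytic_pow_gen D.core D.degree_fields.1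
    D.degree_fields.2 p hp r s hr hs h₁ 1 hh₁ (K2g_one_ne_zero D) 1 one_ne_zero hrel hinv
  exact ⟨x, by rw [hrs]; exact hx⟩

end Fermat.Agent.S48.H642
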