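import Fermat.Agent.S48.H642.KDict
import Fermat.Agent.S48.H642.K2Gen
import Fermat.Agent.S48.H882.K3Fin

/-!
# Tower A1 / A1-KUM, leaf `k3`, input DTO — generic form (helper642)

`dToG_of_genData` : **DTO** (`H882.DToG`, "K2 over `ℂ`") for any analytic input
`D : GenData M Γ' (GenField.ofRat S₀ hj)` (helper332) with `Γ'` of finite index, `Γ' ⊆ ±Γ`, `Γ` of
level `M` containing `T`: for a twisted function `U` of a parabolic character `c : Γ → ℤ/p`, the
`q`-expansion `f = qexp (U ^ p)` satisfies `p ∣ ord_w f` at EVERY place `w` of `ℂ·ℚ(S₀)` over `ℂ`.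

= `dvd_ord_of_analytic_pow_K` (`KDict.lean`) at `K = ℂ`, `ι = id`, with the degree bound over `ℂ`
from `H332.finiteDimensional_and_finrank_le_G` and `GenData.hypG`.
-/

set_option autoImplicit false
set_option linter.unusedSectionVars false
set_option linter.unusedVariables false
set_option linter.style.haveILetI false

noncomputable section

open ModularCurve AlgebraicCurve UpperHalfPlane HahnSeries
open scoped MatrixGroups Manifold Real

namespace Fermat.Agent.S48.H642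

open Fermat.Agent.S24 Fermat.Agent.S24.H997 Fermat.Agent.S24.H648 Fermat.Agent.S24.H708
  Fermat.Agent.S24.Deg457 Fermat.Agent.S29 Fermat.Agent.S48.H332 Fermat.Agent.S48.Kum
open Fermat.Agent.S29.H282 (ΦK)

variable {M : ℕ} [NeZero M] {Γ Γ' : Subgroup SL(2, ℤ)} {S₀ : Set (LaurentSeries ℚ)}
  {hj : jq ∈ S₀} {p : ℕ}

/-! ### The degree bound over `K` -/

section Degree

variable (K : Type*) [Field K] [Algebra ℚ K]

/-- `K·ℚ(S₀)` is generated over `K` by `S₀`. -/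
theorem FK_eq_adjoin (S₀ : Set (LaurentSeries ℚ)) :
    FK K S₀ = IntermediateField.adjoin K (H882.gensG K S₀) := by
  apply le_antisymm
  · exact H882.laurentBaseChange_le_adjoin_gensG K le_rfl
  · rw [IntermediateField.adjoin_le_iff]
    rintro _ ⟨y, hy, rfl⟩
    exact coeffEmb_mem_laurentBaseChange K (IntermediateField.subset_adjoin ℚ S₀ hy)

theorem image_coeffMap_gensG (ι : K →+* ℂ) (hj : jq ∈ S₀) :
    ⇑(coeffMap ι) '' H882.gensG K S₀ = GenData.SC (GenField.ofRat S₀ hj) := by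
  ext x
  constructor
  · rintro ⟨_, ⟨y, hy, rfl⟩, rfl⟩
    exact ⟨coeffEmb Kbar y, ⟨y, hy, rfl⟩, by rw [coeffMap_coeffEmb', coeffMap_coeffEmb']⟩
  · rintro ⟨_, ⟨y, hy, rfl⟩, rfl⟩
    exact ⟨coeffEmb K y, ⟨y, hy, rfl⟩, by rw [coeffMap_coeffEmb', coeffMap_coeffEmb']⟩

/-- **The degree bound over `K`**: `K·ℚ(S₀)/K(j)` is finite of degree `≤ |SL₂(ℤ)/Γ'|`. -/
theorem degree_fields_K [CharZero K] (ι : K →+* ℂ)
    (D : GenData M Γ' (GenField.ofRat S₀ hj)) [Finite (XG Γ')] :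
    FiniteDimensional ↥(IntermediateField.adjoin K {jFK K hj}) (FK K S₀) ∧
      Module.finrank ↥(IntermediateField.adjoin K {jFK K hj}) (FK K S₀) ≤ Nat.card (XG Γ') := by
  refine finiteDimensional_and_finrank_le_G ι (S := H882.gensG K S₀) ⟨jq, hj, rfl⟩ (FK K S₀)
    (FK_eq_adjoin K S₀) (jFK K hj) rfl _ ?_
  rw [image_coeffMap_gensG K ι hj]
  exact D.hypG

end Degree

/-! ### DTO -/

theorem K2g_one_ne_zero' (B : GenBase M Γ' (GenField.ofRat S₀ hj)) : (1 : B.Hol) ≠ 0 := by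
  intro h
  have := congrArg (fun f : B.Hol => (f : ℍ → ℂ) UpperHalfPlane.I) h
  simp at this

/-- **DTO, generic.** -/
theorem dToG_of_genData (D : GenData M Γ' (GenField.ofRat S₀ hj)) [Finite (XG Γ')]
    (hΓ' : ∀ δ : SL(2, ℤ), δ ∈ Γ' → δ ∈ Γ ∨ -δ ∈ Γ)
    (hlev : ∀ g : SL(2, ℤ), g * ModularGroup.T ^ ((M : ℕ) : ℤ) * g⁻¹ ∈ Γ)
    (hT : ModularGroup.T ∈ Γ) (hp : p ≠ 0)
    {c : Γ → ZMod p} (hc : IsParHom Γ c) {U : ℍ → ℂ} (hU : IsTwisted Γ p c U) :
    H882.DToG (IntermediateField.adjoin ℚ S₀) p U := by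
  classical
  intro f hf w
  set B := D.core.toGenBase with hB
  let h₁ : B.Hol := ⟨U, K2g_mem_holN hp hlev hc hU⟩
  have hh₁ : h₁ ≠ 0 := by
    obtain ⟨τ, hτ⟩ := hU.ne_zero
    intro h0
    apply hτ
    exact congrArg (fun f : B.Hol => (f : ℍ → ℂ) τ) h0
  -- the expansion of `U ^ p`
  have hq : B.qexp (h₁ ^ p) = ΦK (RingHom.id ℂ) M ((f : FK ℂ S₀) : LaurentSeries ℂ) := by
    have h0 : HasQExp 1 (fun τ => U τ ^ p) (qexpFun 1 (fun τ => U τ ^ p)) :=
      hU.pow_good.hasQExp hT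
    have h1 : InfExp M (fun τ => U τ ^ p)
        (ΦK (RingHom.id ℂ) M ((f : FK ℂ S₀) : LaurentSeries ℂ)) := by
      have h2 := HasQExp.of_period_mul M h0
      intro τ
      have h3 := HasQExp.hasSum h2 τ
      simp only [one_mul] at h3
      show HasSum _ _
      have e : ΦK (RingHom.id ℂ) M ((f : FK ℂ S₀) : LaurentSeries ℂ)
          = qExpand ℂ M (qexpFun 1 (fun τ => U τ ^ p)) := by
        show qExpand ℂ M (coeffMap (RingHom.id ℂ) ((f : FK ℂ S₀) : LaurentSeries ℂ)) = _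
        rw [coeffMap_id, hf]
      rw [e]
      exact h3
    have h2 : InfExp M (((h₁ ^ p : B.Hol)) : ℍ → ℂ) (B.qexp (h₁ ^ p)) :=
      D.base_qexp_spec (h₁ ^ p)
    exact h2.unique' h1 (fun τ => rfl)
  have hqne : B.qexp (h₁ ^ p) ≠ 0 := by
    rw [map_pow]
    refine pow_ne_zero _ ?_
    intro h0
    exact hh₁ (B.qexp_injective (h0.trans (map_zero _).symm))
  have hf0 : f ≠ 0 := by
    intro h0
    apply hqne
    rw [hq, h0]
    simp
  -- `f = r / s`
  obtain ⟨r, s, hs, hrs⟩ := exists_div_inclRK ℂ S₀ f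
  have hs' : inclRK ℂ S₀ s ≠ 0 := fun h => hs (inclRK_injective ℂ S₀ (by rw [h, map_zero]))
  have hr : r ≠ 0 := by
    intro h0
    apply hf0
    rw [hrs, h0, map_zero, zero_div]
  have hmul : ((r : RK ℂ S₀) : LaurentSeries ℂ)
      = ((f : FK ℂ S₀) : LaurentSeries ℂ) * ((s : RK ℂ S₀) : LaurentSeries ℂ) := by
    have h1 : (inclRK ℂ S₀ r : FK ℂ S₀) = f * inclRK ℂ S₀ s := by
      rw [hrs, div_mul_cancel₀ _ hs']
    exact congrArg (fun f : FK ℂ S₀ => (f : LaurentSeries ℂ)) h1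
  have hrel : bridgeK (RingHom.id ℂ) B r * (1 : B.Hol) ^ p
      = B.constH 1 * h₁ ^ p * bridgeK (RingHom.id ℂ) B s := by
    apply B.qexp_injective
    have hc1 : B.qexp (B.constH 1) = 1 := by
      have := B.qexp_const 1
      rw [map_one] at this
      exact this
    rw [one_pow, mul_one, map_mul, map_mul, hq, hc1, one_mul, qexp_bridgeK,
      qexp_bridgeK, ← map_mul, hmul]
  have hinv : ∀ δ : SL(2, ℤ), δ ∈ Γ' → H389.Nice δ →
      B.compH δ h₁ * 1 = h₁ * B.compH δ 1 := by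
    intro δ hδ hnice
    have h1 : B.compH δ h₁ = h₁ := by
      apply Subtype.ext
      funext τ
      show U (δ • τ) = U τ
      exact K2g_invariant_of_nice hc hU.hasChar (hΓ' δ hδ) hnice τ
    rw [h1, map_one]
  obtain ⟨hfd, hle⟩ := degree_fields_K ℂ (RingHom.id ℂ) D
  have key := dvd_ord_of_analytic_pow_K (RingHom.id ℂ) D.core hfd hle p r s hr hs h₁ 1 hh₁
    (K2g_one_ne_zero' B) 1 one_ne_zero hrel hinv w
  rw [hrs]
  exact key

end Fermat.Agent.S48.H642
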