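import Fermat.Agent.S48.H642.DTo
import Fermat.Agent.S48.H332.F1Inst
import Fermat.Agent.S48.H441.K3Leaf

/-!
# Tower A1 / A1-KUM, leaf `k3` — input DTO for `(Γ₁(M), F1 M)` (helper642)

`dTo1 : ∀ M ℓ, ℓ.Prime → H441.DTo1 M ℓ`, UNCONDITIONAL: for every twisted function `U` of a
parabolic character `c : Γ₁(M) → ℤ/ℓ`, `ℓ ∣ ord_w (qexp (U ^ ℓ))` at every place `w` of
`ℂ·F₁(M)` over `ℂ` (`H882.DToG (F1 M) ℓ U`; second input of `H441.leafK3_441` /
`H882.pieceK3G`).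

= `dToG_of_genData` (`DTo.lean`) for helper332's `f1Data M : GenData M (±Γ₁(M)) (f1Field M)`.
-/

set_option autoImplicit false

noncomputable section

open ModularCurve AlgebraicCurve CongruenceSubgroup UpperHalfPlane
open scoped MatrixGroups

namespace Fermat.Agent.S48.H642

open Fermat.Agent.S48.H332 Fermat.Agent.S48.Kum

/-- **DTO for `Γ₁(M)`**, one twisted function. -/
theorem dToG_f1 (M : ℕ) [NeZero M] (ℓ : ℕ) (hℓ : ℓ ≠ 0) {c : Gamma1 M → ZMod ℓ}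
    (hc : IsParHom (Gamma1 M) c) {U : ℍ → ℂ} (hU : IsTwisted (Gamma1 M) ℓ c U) :
    Fermat.Agent.S48.H882.DToG (Fermat.Agent.S48.F1.F1 M) ℓ U :=
  dToG_of_genData (f1Data M) (fun _ hδ => mem_pmGamma1_iff.mp hδ)
    (fun g => (hasLevel_Gamma1 M).conj_T_pow g) (Fermat.Agent.S48.H332.T_mem_Gamma1 M) hℓ hc hU

/-- **DTO for `Γ₁(M)`** in the exact shape of the input of `H441.leafK3_441`. -/
theorem dTo1 (M : ℕ) [NeZero M] (ℓ : ℕ) (hℓ : ℓ.Prime) : Fermat.Agent.S48.H441.DTo1 M ℓ :=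
  fun hc _ hU => dToG_f1 M ℓ hℓ.ne_zero hc hU

end Fermat.Agent.S48.H642
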