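import Fermat.Agent.S29.H389.Dict
import Fermat.Agent.S48.H332.PkgCore

/-!
# Tower A1 / A1-KUM, leaf `k2` — piece DICT, generic form (helper642)

GENERIC port of `S29/H389/Dict.lean` (helper389) to helper332's generic package
(`S48/H332/Pkg*.lean`): places dictionary for ANY field `P.F = ℚ̄(S)` of modular functions for ANY
group `Γ` carrying a generic analytic core `A : GenCore M Γ P` and the degree bound
`[F : ℚ̄(j)] ≤ |SL₂(ℤ)/Γ|`.

Main result `dvd_ord_of_analytic_pow_gen` : let `r, s ∈ ℚ̄[S]` be nonzero and let `h₁, h₂ ≠ 0` be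
functions in the ring `Hol` of the core with `e(r) · h₂ ^ p = c · h₁ ^ p · e(s)` (`e` the bridge
`ℚ̄[S] → Hol`), such that the quotient `h₁ / h₂` is invariant under every `δ ∈ Γ` which has finite
order or trace `2`.  Then `p ∣ ord_v (r / s)` for EVERY place `v` of `P.F`.
-/

set_option autoImplicit false
set_option linter.style.haveILetI false
set_option linter.unusedSectionVars false

noncomputable section

open AlgebraicCurve HahnSeries ModularCurve
open scoped MatrixGroups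

namespace Fermat.Agent.S48.H642

open Fermat.Agent.S24 Fermat.Agent.S24.H997 Fermat.Agent.S48.H332 Fermat.Agent.S29.H389

variable {M : ℕ} [NeZero M] {Γ : Subgroup SL(2, ℤ)} {P : GenField}

/-- Iterating the rotation data: precomposition with `ε ^ n`. -/
theorem rot_iter_gen (B : GenBase M Γ P) (X : GenExpansion B) (ε : SL(2, ℤ))
    (R : GenRotData B X ε) (n : ℕ) (h : B.Hol) :
    (X.E (B.compH (ε ^ n) h)).order = (X.E h).order ∧
      (X.E (B.compH (ε ^ n) h)).leadingCoeff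
        = (R.ζ ^ (X.E h).order) ^ n * (X.E h).leadingCoeff := by
  induction n with
  | zero => simp [B.compH_one]
  | succ n ih =>
    have hstep : B.compH (ε ^ (n + 1)) h = B.compH ε (B.compH (ε ^ n) h) := by
      rw [pow_succ, B.compH_mul]
    have hr := R.rot (B.compH (ε ^ n) h)
    rw [hstep]
    refine ⟨by rw [hr.1, ih.1], ?_⟩
    rw [hr.2, ih.1, ih.2, pow_succ]
    ring

/-! ### The local statement -/

/-- **DICT, local form (generic).**  For the local data built from an expansion with rotation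
data, an analytic `p`-th power relation whose root is invariant under nice elements of `Γ`
forces `p ∣ ord_v` at every place over `t = 0`. -/
theorem dvd_ord_mkLocalData_gen (B : GenBase M Γ P) (X : GenExpansion B) (ε : SL(2, ℤ))
    (R : GenRotData B X ε) (t : P.F) (u : LaurentSeries ℂ)
    (ht : ∀ g : SL(2, ℤ), B.sigmaG X g t = u) (hu : u.order = (R.m : ℤ))
    [Finite (XG Γ)] [FiniteDimensional ↥(IntermediateField.adjoin Kbar {t}) P.F]
    (hrank : Module.finrank ↥(IntermediateField.adjoin Kbar {t}) P.F = Nat.card (XG Γ))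
    (hε : ∀ n : ℕ, Nice (ε ^ n))
    (p : ℕ) (r s : P.RG) (hr : r ≠ 0) (hs : s ≠ 0) (h₁ h₂ : B.Hol) (hh₁ : h₁ ≠ 0)
    (hh₂ : h₂ ≠ 0) (c : ℂ) (hc : c ≠ 0)
    (hrel : B.bridge r * h₂ ^ p = B.constH c * h₁ ^ p * B.bridge s)
    (hinv : ∀ δ : SL(2, ℤ), δ ∈ Γ → Nice δ →
      B.compH δ h₁ * h₂ = h₁ * B.compH δ h₂)
    (v : Place Kbar P.F) (hv : 0 < v.ord t) :
    (p : ℤ) ∣ v.ord (P.inclRG r / P.inclRG s) := by
  classical
  set L := B.mkLocalData X ε R t u ht hu with hL
  obtain ⟨x, hx⟩ :=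
    H117.exists_placeOf_eq L (IntermediateField.adjoin Kbar {t}) le_rfl hrank v hv
  obtain ⟨g, rfl⟩ := QuotientGroup.mk_surjective x
  have hσ : L.σ (g : XG Γ) = B.sigmaG X g := B.sigmaX_mk X g
  -- translated functions
  set h₁' := B.compH g⁻¹ h₁ with hh₁'
  set h₂' := B.compH g⁻¹ h₂ with hh₂'
  have hE₁ : X.E h₁' ≠ 0 := by
    intro h0
    apply hh₁
    apply B.compH_injective g⁻¹
    apply X.inj
    rw [h0, map_zero, map_zero]
  have hE₂ : X.E h₂' ≠ 0 := by
    intro h0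
    apply hh₂
    apply B.compH_injective g⁻¹
    apply X.inj
    rw [h0, map_zero, map_zero]
  set k₁ := (X.E h₁').order with hk₁
  set k₂ := (X.E h₂').order with hk₂
  -- the relation, expanded
  have hrel' : B.sigmaG X g (P.inclRG r) * (X.E h₂') ^ p
      = HahnSeries.C c * (X.E h₁') ^ p * B.sigmaG X g (P.inclRG s) := by
    rw [B.sigmaG_inclRG, B.sigmaG_inclRG]
    have := congrArg (fun z => X.E (B.compH g⁻¹ z)) hrel
    simp only [map_mul, map_pow, B.compH_constH, X.const] at this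
    exact this
  have hr' : P.inclRG r ≠ 0 := fun h => hr (P.inclRG_injective (by rw [h, map_zero]))
  have hs' : P.inclRG s ≠ 0 := fun h => hs (P.inclRG_injective (by rw [h, map_zero]))
  have hσr : B.sigmaG X g (P.inclRG r) ≠ 0 := (map_ne_zero _).mpr hr'
  have hσs : B.sigmaG X g (P.inclRG s) ≠ 0 := (map_ne_zero _).mpr hs'
  have hC : (HahnSeries.C c : LaurentSeries ℂ) ≠ 0 := by
    intro h0
    apply hc
    have := congrArg (fun z : LaurentSeries ℂ => z.coeff 0) h0
    simpa using this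
  have hord : (B.sigmaG X g (P.inclRG r / P.inclRG s)).order = (p : ℤ) * (k₁ - k₂) := by
    have h1 := congrArg HahnSeries.order hrel'
    rw [ls_order_mul hσr (pow_ne_zero p hE₂), ls_order_pow hE₂,
      ls_order_mul (mul_ne_zero hC (pow_ne_zero p hE₁)) hσs,
      ls_order_mul hC (pow_ne_zero p hE₁), ls_order_pow hE₁, ls_order_C] at h1
    rw [map_div₀, div_eq_mul_inv, ls_order_mul hσr (inv_ne_zero hσs),
      RotRel.order_inv' hσs]
    linarith
  -- multiplicity
  have hmult := H117.order_eq L (g : XG Γ) (P.inclRG r / P.inclRG s)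
  rw [hσ, hord, hx] at hmult
  -- orbit length
  have hfin := H117.finite_places_over L (IntermediateField.adjoin Kbar {t}) le_rfl hrank
  have hS : ∀ w : Place Kbar P.F, w ∈ hfin.toFinset ↔ 0 < w.ord t := fun w => by
    simp
  have hsum := H144.loc_fundamental_inequality L hfin.toFinset hS
  obtain ⟨-, horb, -⟩ :=
    H117.localThm L (IntermediateField.adjoin Kbar {t}) le_rfl hrank hfin.toFinset hS hsum
  have hn := horb (g : XG Γ)
  rw [hx] at hn
  set n := Nat.card (MulAction.orbit (Subgroup.zpowers L.perm) (g : XG Γ)) with hn_def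
  have hnpos : 0 < n := by
    have : (0 : ℤ) < n := by rw [hn]; exact hv
    exact_mod_cast this
  -- `perm ^ n` fixes `x`
  have hper : (L.perm ^ n) (g : XG Γ) = (g : XG Γ) := by
    letI : Fintype (MulAction.orbit (Subgroup.zpowers L.perm) (g : XG Γ)) :=
      Fintype.ofFinite _
    have h1 : Function.minimalPeriod (L.perm • ·) (g : XG Γ) = n := by
      rw [MulAction.minimalPeriod_eq_card, hn_def, Nat.card_eq_fintype_card]
    have h2 := Function.isPeriodicPt_minimalPeriod (L.perm • ·) (g : XG Γ)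
    rw [h1] at h2
    have h3 : ((L.perm • ·) : XG Γ → XG Γ) = ⇑L.perm := rfl
    rw [h3] at h2
    have h4 : (⇑L.perm)^[n] (g : XG Γ) = (g : XG Γ) := h2
    rw [Equiv.Perm.iterate_eq_pow] at h4
    exact h4
  -- the element `δ = g⁻¹ ε ^ n g` of `Γ`
  have hperm_pow : (L.perm ^ n) (g : XG Γ) = (((ε⁻¹) ^ n * g : SL(2, ℤ)) : XG Γ) := by
    have h1 : L.perm = permG Γ ε⁻¹ := rfl
    rw [h1]
    have h2 : (permG Γ ε⁻¹) ^ n = permG Γ ((ε⁻¹) ^ n) := by
      unfold permG
      exact (map_pow (MulAction.toPermHom SL(2, ℤ) (XG Γ)) ε⁻¹ n).symm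
    rw [h2]
    rfl
  have hδmem : g⁻¹ * ε ^ n * g ∈ Γ := by
    have h1 := hper
    rw [hperm_pow] at h1
    have h2 := QuotientGroup.eq.mp h1
    have h3 : ((ε⁻¹) ^ n * g)⁻¹ * g = g⁻¹ * ε ^ n * g := by
      rw [mul_inv_rev, inv_pow, inv_inv]
    rwa [h3] at h2
  have hδnice : Nice (g⁻¹ * ε ^ n * g) := (hε n).conj g
  have hinv' := hinv _ hδmem hδnice
  -- transport by `g⁻¹`
  have hcomp : ∀ h : B.Hol, B.compH g⁻¹ (B.compH (g⁻¹ * ε ^ n * g) h)
      = B.compH (ε ^ n) (B.compH g⁻¹ h) := by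
    intro h
    rw [← B.compH_mul, ← B.compH_mul]
    congr 1
    group
  have hrot : B.compH (ε ^ n) h₁' * h₂' = h₁' * B.compH (ε ^ n) h₂' := by
    have := congrArg (B.compH g⁻¹) hinv'
    rw [map_mul, map_mul, hcomp, hcomp] at this
    exact this
  have hlc := congrArg (fun z => (X.E z).leadingCoeff) hrot
  simp only [map_mul, leadingCoeff_mul] at hlc
  rw [(rot_iter_gen B X ε R n h₁').2, (rot_iter_gen B X ε R n h₂').2] at hlc
  have hl₁ : (X.E h₁').leadingCoeff ≠ 0 := leadingCoeff_ne_zero.mpr hE₁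
  have hl₂ : (X.E h₂').leadingCoeff ≠ 0 := leadingCoeff_ne_zero.mpr hE₂
  have hζ0 : R.ζ ≠ 0 := R.hζ.ne_zero R.m_pos.ne'
  have hζeq : (R.ζ ^ k₁) ^ n = (R.ζ ^ k₂) ^ n := by
    have h1 : (R.ζ ^ k₁) ^ n * ((X.E h₁').leadingCoeff * (X.E h₂').leadingCoeff)
        = (R.ζ ^ k₂) ^ n * ((X.E h₁').leadingCoeff * (X.E h₂').leadingCoeff) := by
      linear_combination hlc
    exact mul_right_cancel₀ (mul_ne_zero hl₁ hl₂) h1
  have hζ1 : R.ζ ^ ((n : ℤ) * (k₁ - k₂)) = 1 := by
    have h1 : R.ζ ^ ((n : ℤ) * k₁) = R.ζ ^ ((n : ℤ) * k₂) := by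
      rw [mul_comm (n : ℤ) k₁, mul_comm (n : ℤ) k₂, zpow_mul, zpow_mul, zpow_natCast,
        zpow_natCast]
      exact hζeq
    rw [mul_sub, zpow_sub₀ hζ0, h1]
    exact div_self (zpow_ne_zero _ hζ0)
  have hdvd : ((R.m : ℕ) : ℤ) ∣ (n : ℤ) * (k₁ - k₂) := (R.hζ.zpow_eq_one_iff_dvd _).mp hζ1
  have hmm := H117.mult_mul_ord_t L (g : XG Γ)
  rw [hx, ← hn] at hmm
  have hLm : L.m = R.m := rfl
  rw [hLm] at hmm
  rw [← hmm] at hdvd
  have hn0 : (n : ℤ) ≠ 0 := by exact_mod_cast hnpos.ne'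
  have hdvd' : (H117.mult L (g : XG Γ) : ℤ) ∣ (k₁ - k₂) := by
    rw [mul_comm] at hdvd
    exact (mul_dvd_mul_iff_left hn0).mp hdvd
  obtain ⟨q, hq⟩ := hdvd'
  refine ⟨q, ?_⟩
  have hm0 : (H117.mult L (g : XG Γ) : ℤ) ≠ 0 := by
    exact_mod_cast (H117.mult_pos L (g : XG Γ)).ne'
  rw [hq] at hmult
  have : (H117.mult L (g : XG Γ) : ℤ) * ((p : ℤ) * q)
      = (H117.mult L (g : XG Γ) : ℤ) * v.ord (P.inclRG r / P.inclRG s) := by
    rw [← hmult]; ring
  exact (mul_left_cancel₀ hm0 this).symm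

/-! ### The global statement -/

/-- **DICT (generic).**  Let `A` be a generic analytic core for `(M, Γ, P)` and assume the degree
bound `[F : ℚ̄(j)] ≤ |SL₂(ℤ)/Γ|`; let `r, s ∈ ℚ̄[S]` be nonzero and `h₁, h₂ ∈ Hol` nonzero with
`e(r) · h₂ ^ p = c · h₁ ^ p · e(s)`, `c ≠ 0`, and suppose `h₁ / h₂` is invariant under every
element of `Γ` of finite order or of trace `2`.  Then `p` divides the order of `r / s` at EVERY
place of the function field `P.F`. -/
theorem dvd_ord_of_analytic_pow_gen (A : GenCore M Γ P)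
    (hfd : FiniteDimensional ↥(IntermediateField.adjoin Kbar {P.jF}) P.F)
    (hle : Module.finrank ↥(IntermediateField.adjoin Kbar {P.jF}) P.F ≤ Nat.card (XG Γ))
    (p : ℕ) (r s : P.RG) (hr : r ≠ 0)
    (hs : s ≠ 0) (h₁ h₂ : A.toGenBase.Hol) (hh₁ : h₁ ≠ 0) (hh₂ : h₂ ≠ 0) (c : ℂ) (hc : c ≠ 0)
    (hrel : A.toGenBase.bridge r * h₂ ^ p
      = A.toGenBase.constH c * h₁ ^ p * A.toGenBase.bridge s)
    (hinv : ∀ δ : SL(2, ℤ), δ ∈ Γ → Nice δ →
      A.toGenBase.compH δ h₁ * h₂ = h₁ * A.toGenBase.compH δ h₂)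
    (v : Place Kbar P.F) :
    (p : ℤ) ∣ v.ord (P.inclRG r / P.inclRG s) := by
  classical
  haveI := hfd
  haveI : Finite (XG Γ) := A.finite_XG
  have hrank : Module.finrank ↥(IntermediateField.adjoin Kbar {P.jF}) P.F
      = Nat.card (XG Γ) := le_antisymm hle A.card_le_finrank
  by_cases hj : 0 ≤ v.ord P.jF
  · haveI : Algebra.IsAlgebraic ↥(IntermediateField.adjoin Kbar {P.jF}) P.F :=
      Algebra.IsAlgebraic.of_finite _ _
    obtain ⟨a, ha⟩ := FF.exists_ord_sub_pos v P.jF hj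
    obtain ⟨hfd', hfr⟩ :=
      finiteDimensional_and_finrank_of_eq (adjoin_sub_algebraMap Kbar P.jF a)
    haveI := hfd'
    have hr' := hfr.trans hrank
    have key : ∀ (ε : SL(2, ℤ)) (Q : GenPointData A.toGenBase (ιK a) ε),
        (∀ n : ℕ, Nice (ε ^ n)) → (p : ℤ) ∣ v.ord (P.inclRG r / P.inclRG s) := fun ε Q hε =>
      dvd_ord_mkLocalData_gen A.toGenBase Q.X ε Q.R _ _ (fun g => A.sigmaG_sub Q g) Q.order_J
        hr' hε p r s hr hs h₁ h₂ hh₁ hh₂ c hc hrel hinv v ha
    by_cases h0 : a = 0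
    · exact key (ModularGroup.S * ModularGroup.T) (by rw [h0, map_zero]; exact A.at0)
        nice_pow_ST
    · by_cases h1 : a = 1728
      · refine key ModularGroup.S ?_ nice_pow_S
        have : ιK a = 1728 := by rw [h1]; exact map_ofNat ιK 1728
        rw [this]; exact A.at1728
      · exact key 1 (A.generic (ιK a)
          (fun h => h0 (ιK_injective (by rw [h, map_zero])))
          (fun h => h1 (ιK_injective (by rw [h]; exact (map_ofNat ιK 1728).symm))))
          nice_pow_one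
  · have hjinv : 0 < v.ord (P.jF)⁻¹ := by
      rw [Place.ord_inv]
      omega
    obtain ⟨hfd', hfr⟩ := finiteDimensional_and_finrank_of_eq (adjoin_inv Kbar P.jF)
    haveI := hfd'
    have hr' := hfr.trans hrank
    exact dvd_ord_mkLocalData_gen A.toGenBase A.toGenBase.qexpExpansion ModularGroup.T A.infRot
      (P.jF)⁻¹ (A.qexp A.toGenBase.JH)⁻¹
      (fun g => by rw [map_inv₀, GenBase.sigmaG_jF]; rfl)
      (by
        rw [RotRel.order_inv' A.toGenBase.qexp_JH_ne_zero, A.toGenBase.order_qexp_JH,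
          neg_neg]
        rfl)
      hr' nice_pow_T p r s hr hs h₁ h₂ hh₁ hh₂ c hc hrel hinv v hjinv

end Fermat.Agent.S48.H642
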