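import Fermat.Agent.S48.H642.K2Gen
import Fermat.Agent.S48.H332.F1Inst
import Fermat.Agent.S48.F1.Defs

/-!
# Tower A1 / A1-KUM — leaf `k2` of `Kum.Leaves` (helper642)

`k2 : ∀ M ℓ, ℓ.Prime → Kum.PieceK2 (Gamma1 M) (F1.F1Bar M) ℓ`, VERBATIM the field `k2` of
`Fermat.Agent.S48.Kum.Leaves` (`Kum/M4b1.lean`), UNCONDITIONAL:

if `u ∈ ℚ̄·F₁(M)` is realised by `U ^ ℓ`, `U` a twisted function of a character
`c : Γ₁(M) → ℤ/ℓ` killing parabolic and finite-order elements, then `u` has an `ℓ`-Kummer class in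
`J₁(M)(ℚ̄) = Pic⁰(ℚ̄·F₁(M))`.

= `pieceK2_of_genData` (generic DICT, `K2Gen.lean`) for helper332's analytic input
`H332.f1Data M : GenData M (±Γ₁(M)) (f1Field M)`.
-/

set_option autoImplicit false

noncomputable section

open ModularCurve AlgebraicCurve CongruenceSubgroup
open scoped MatrixGroups

namespace Fermat.Agent.S48.H642

open Fermat.Agent.S48.H332 Fermat.Agent.S48.Kum

/-- **Leaf `k2`** of sub-tower A1-KUM (exact type of `Kum.Leaves.k2`). -/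
theorem k2 (M : ℕ) [NeZero M] (ℓ : ℕ) (hℓ : ℓ.Prime) :
    PieceK2 (Gamma1 M) (Fermat.Agent.S48.F1.F1Bar M) ℓ :=
  pieceK2_of_genData (f1Data M) (fun _ hδ => mem_pmGamma1_iff.mp hδ)
    (fun g => (hasLevel_Gamma1 M).conj_T_pow g) (Fermat.Agent.S48.H332.T_mem_Gamma1 M)
    hℓ.ne_zero

end Fermat.Agent.S48.H642
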