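import Fermat.Agent.S48.H332.PkgCore
import Fermat.Agent.S48.H882.GenField
import Fermat.Agent.S29.H282.BridgeK

/-!
# Tower A1 / A1-KUM, leaf `k3`, input DTO — the bridge over an arbitrary coefficient field
(helper642)

Let `S₀ ⊆ ℚ((q))` be a set of rational series containing `j`, `P = GenField.ofRat S₀` the field
`ℚ̄(S₀)`, and `B : GenBase M Γ P` helper332's generic analytic interface (ring `Hol` of functions
on `ℍ`, avatars of the generators, expansion `qexp` at `i∞`).  The analytic side does not depend on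
the coefficient field: for ANY field `K ⊇ ℚ` with `ι : K →+* ℂ` we construct, on top of the SAME
`B` (design of helper282's `S29/H282/{FracK,BridgeK,LocalK}`):

* `FK K S₀ = K·ℚ(S₀)`, `RK K S₀ = K[S₀]`, `inclRK`, `liftFK`;
* the bridge `bridgeK ι B : K[S₀] →+* Hol` (`qexp (e r) = r(z^M)`, coefficients via `ι`);
* the embeddings `sigmaGK ι B X g : K·ℚ(S₀) →+* ℂ((z))` and `mkLocalDataK`.
-/

set_option autoImplicit false
set_option linter.unusedSectionVars false
set_option linter.unusedVariables false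

noncomputable section

open ModularCurve HahnSeries UpperHalfPlane
open scoped MatrixGroups

namespace Fermat.Agent.S48.H642

open Fermat.Agent.S24 Fermat.Agent.S24.H997 Fermat.Agent.S24.Deg457 Fermat.Agent.S48.H332
open Fermat.Agent.S29.H282 (ΦK ΦK_injective ΦK_coeff ΦK_algebraMap)

/-! ### The algebraic side over `K` -/

section Alg

variable (K : Type*) [Field K] [Algebra ℚ K] (S₀ : Set (LaurentSeries ℚ))

/-- The field `K·ℚ(S₀) ⊆ K((q))`. -/
abbrev FK : IntermediateField K (LaurentSeries K) :=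
  laurentBaseChange K (IntermediateField.adjoin ℚ S₀)

/-- The polynomial ring `K[S₀] ⊆ K((q))`. -/
abbrev RK : Subalgebra K (LaurentSeries K) := H882.AKG K S₀

theorem RK_le : RK K S₀ ≤ (FK K S₀).toSubalgebra :=
  H882.AKG_le_laurentBaseChange K (IntermediateField.subset_adjoin ℚ S₀)

/-- The inclusion `K[S₀] → K·ℚ(S₀)`. -/
def inclRK : RK K S₀ →ₐ[K] FK K S₀ := Subalgebra.inclusion (RK_le K S₀)

@[simp] theorem coe_inclRK (r : RK K S₀) :
    ((inclRK K S₀ r : FK K S₀) : LaurentSeries K) = r := rfl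

theorem inclRK_injective : Function.Injective (inclRK K S₀) :=
  Subalgebra.inclusion_injective (RK_le K S₀)

theorem exists_div_inclRK (f : FK K S₀) :
    ∃ r t : RK K S₀, t ≠ 0 ∧ f = inclRK K S₀ r / inclRK K S₀ t := by
  obtain ⟨r, hr, s, hs, hs0, h⟩ := H882.exists_div_AKG K (S := S₀) le_rfl f.2
  refine ⟨⟨r, hr⟩, ⟨s, hs⟩, fun h0 => hs0 (congrArg Subtype.val h0), ?_⟩
  apply Subtype.ext
  rw [h]
  simp

variable {S₀}

/-- A generator as an element of `K[S₀]`. -/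
def genRK {s : LaurentSeries ℚ} (hs : s ∈ S₀) : RK K S₀ :=
  ⟨coeffEmb K s, H882.coeffEmb_mem_AKG hs⟩

/-- A generator as an element of `K·ℚ(S₀)`. -/
def genFK {s : LaurentSeries ℚ} (hs : s ∈ S₀) : FK K S₀ :=
  ⟨coeffEmb K s, coeffEmb_mem_laurentBaseChange K (IntermediateField.subset_adjoin ℚ S₀ hs)⟩

@[simp] theorem inclRK_genRK {s : LaurentSeries ℚ} (hs : s ∈ S₀) :
    inclRK K S₀ (genRK K hs) = genFK K hs := rfl

/-- The `j`-function as an element of `K·ℚ(S₀)`. -/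
def jFK (hj : jq ∈ S₀) : FK K S₀ := genFK K hj

@[simp] theorem coe_jFK (hj : jq ∈ S₀) :
    ((jFK K hj : FK K S₀) : LaurentSeries K) = coeffEmb K jq := rfl

section Lift

variable {K}
variable {L : Type*} [Field L]

/-- Extension of an injective ring hom `K[S₀] →+* L` to the fraction field `K·ℚ(S₀)`. -/
def liftFK (s : RK K S₀ →+* L) (hs : Function.Injective s) : FK K S₀ →+* L :=
  letI : Algebra (RK K S₀) (FK K S₀) := (inclRK K S₀).toRingHom.toAlgebra
  haveI : FaithfulSMul (RK K S₀) (FK K S₀) :=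
    (faithfulSMul_iff_algebraMap_injective _ _).mpr (inclRK_injective K S₀)
  haveI : IsFractionRing (RK K S₀) (FK K S₀) :=
    IsFractionRing.of_field _ _ fun z => by
      obtain ⟨r, t, -, h⟩ := exists_div_inclRK K S₀ z
      exact ⟨r, t, h⟩
  IsFractionRing.lift hs

theorem liftFK_inclRK (s : RK K S₀ →+* L) (hs : Function.Injective s) (r : RK K S₀) :
    liftFK s hs (inclRK K S₀ r) = s r := by
  let _ : Algebra (RK K S₀) (FK K S₀) := (inclRK K S₀).toRingHom.toAlgebra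
  have : FaithfulSMul (RK K S₀) (FK K S₀) :=
    (faithfulSMul_iff_algebraMap_injective _ _).mpr (inclRK_injective K S₀)
  have : IsFractionRing (RK K S₀) (FK K S₀) :=
    IsFractionRing.of_field _ _ fun z => by
      obtain ⟨r, t, -, h⟩ := exists_div_inclRK K S₀ z
      exact ⟨r, t, h⟩
  exact IsFractionRing.lift_algebraMap hs r

theorem liftFK_div (s : RK K S₀ →+* L) (hs : Function.Injective s) (r t : RK K S₀) :
    liftFK s hs (inclRK K S₀ r / inclRK K S₀ t) = s r / s t := by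
  rw [map_div₀, liftFK_inclRK, liftFK_inclRK]

theorem liftFK_algebraMap (s : RK K S₀ →+* L) (hs : Function.Injective s) (c : K) :
    liftFK s hs (algebraMap K (FK K S₀) c) = s (algebraMap K (RK K S₀) c) := by
  rw [← liftFK_inclRK s hs]
  congr 1

end Lift

end Alg

/-! ### The bridge -/

section Bridge

variable {K : Type*} [Field K] [Algebra ℚ K] (ι : K →+* ℂ)
variable {M : ℕ} [NeZero M] {Γ : Subgroup SL(2, ℤ)} {S₀ : Set (LaurentSeries ℚ)} {hj : jq ∈ S₀}
variable (B : GenBase M Γ (GenField.ofRat S₀ hj))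

/-- a rational generator is a generator of `ℚ̄(S₀)` -/
theorem mem_ofRat_S {s : LaurentSeries ℚ} (hs : s ∈ S₀) :
    coeffEmb Kbar s ∈ (GenField.ofRat S₀ hj).S := ⟨s, hs, rfl⟩

/-- the avatar of a rational generator -/
def GHK {s : LaurentSeries ℚ} (hs : s ∈ S₀) : B.Hol := B.GH (mem_ofRat_S (hj := hj) hs)

theorem ΦK_genK {s : LaurentSeries ℚ} (hs : s ∈ S₀) :
    ΦK ι M (coeffEmb K s) = B.qexp (GHK B hs) := by
  rw [GHK, B.qexp_GH]
  show qExpand ℂ M (coeffMap ι (coeffEmb K s)) = qExpand ℂ M (coeffMap ιK (coeffEmb Kbar s))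
  rw [coeffMap_coeffEmb', coeffMap_coeffEmb']

theorem ΦK_mem_rangeK {r : LaurentSeries K} (hr : r ∈ RK K S₀) :
    ΦK ι M r ∈ B.qexp.range := by
  induction hr using Algebra.adjoin_induction with
  | mem x hx =>
      obtain ⟨y, hy, rfl⟩ := hx
      exact ⟨GHK B hy, (ΦK_genK ι B hy).symm⟩
  | algebraMap c =>
      exact ⟨B.constH (ι c), by rw [ΦK_algebraMap]; exact B.qexp_const _⟩
  | add _ _ _ _ hx hy => rw [map_add]; exact add_mem hx hy
  | mul _ _ _ _ hx hy => rw [map_mul]; exact mul_mem hx hy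

/-- The bridge `e : K[S₀] →+* Hol`. -/
def bridgeK : RK K S₀ →+* B.Hol :=
  (B.qexpEquiv.symm : B.qexp.range →+* B.Hol).comp
    (((ΦK ι M).comp (RK K S₀).val.toRingHom).codRestrict B.qexp.range
      fun r => ΦK_mem_rangeK ι B r.2)

theorem qexp_bridgeK (r : RK K S₀) :
    B.qexp (bridgeK ι B r) = ΦK ι M (r : LaurentSeries K) := by
  have h := B.qexpEquiv.apply_symm_apply
    ((((ΦK ι M).comp (RK K S₀).val.toRingHom).codRestrict B.qexp.range
      fun r => ΦK_mem_rangeK ι B r.2) r)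
  exact congrArg Subtype.val h

theorem bridgeK_injective : Function.Injective (bridgeK ι B) := by
  intro r r' h
  apply Subtype.ext
  apply ΦK_injective ι (N := M)
  rw [← qexp_bridgeK, ← qexp_bridgeK, h]

theorem bridgeK_algebraMap (c : K) :
    bridgeK ι B (algebraMap K (RK K S₀) c) = B.constH (ι c) := by
  apply B.qexp_injective
  rw [qexp_bridgeK]
  show ΦK ι M (algebraMap K (LaurentSeries K) c) = _
  rw [ΦK_algebraMap]
  exact (B.qexp_const _).symm

theorem bridgeK_genRK {s : LaurentSeries ℚ} (hs : s ∈ S₀) :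
    bridgeK ι B (genRK K hs) = GHK B hs := by
  apply B.qexp_injective
  rw [qexp_bridgeK]
  exact ΦK_genK ι B hs

theorem bridgeK_genRK_j : bridgeK ι B (genRK K hj) = B.JH := bridgeK_genRK ι B hj

/-- Every `e r` is `Γ`-invariant. -/
theorem compH_bridgeK_of_mem {g : SL(2, ℤ)} (hg : g ∈ Γ) (r : RK K S₀) :
    B.compH g (bridgeK ι B r) = bridgeK ι B r := by
  obtain ⟨r, hr⟩ := r
  induction hr using Algebra.adjoin_induction with
  | mem x hx =>
      obtain ⟨y, hy, rfl⟩ := hx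
      have : (⟨coeffEmb K y, Algebra.subset_adjoin ⟨y, hy, rfl⟩⟩ : RK K S₀) = genRK K hy := rfl
      rw [this, bridgeK_genRK]
      exact B.compH_GH_of_mem _ hg
  | algebraMap c =>
      have : (⟨algebraMap K (LaurentSeries K) c, Subalgebra.algebraMap_mem _ c⟩ : RK K S₀)
          = algebraMap K (RK K S₀) c := rfl
      rw [this, bridgeK_algebraMap]
      rfl
  | add x y hx hy ihx ihy =>
      have : (⟨x + y, add_mem hx hy⟩ : RK K S₀) = ⟨x, hx⟩ + ⟨y, hy⟩ := rfl
      rw [this, map_add, map_add, ihx, ihy]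
  | mul x y hx hy ihx ihy =>
      have : (⟨x * y, mul_mem hx hy⟩ : RK K S₀) = ⟨x, hx⟩ * ⟨y, hy⟩ := rfl
      rw [this, map_mul, map_mul, ihx, ihy]

/-- If `h ∈ Hol` has `qexp h = ΦK r` then `e r = h`. -/
theorem bridgeK_eq_of_qexp {r : RK K S₀} {h : B.Hol}
    (hh : B.qexp h = ΦK ι M (r : LaurentSeries K)) : bridgeK ι B r = h := by
  apply B.qexp_injective
  rw [qexp_bridgeK, hh]

end Bridge

/-! ### The embeddings and the local data -/

section Local

variable {K : Type*} [Field K] [Algebra ℚ K] (ι : K →+* ℂ)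
variable {M : ℕ} [NeZero M] {Γ : Subgroup SL(2, ℤ)} {S₀ : Set (LaurentSeries ℚ)} {hj : jq ∈ S₀}
variable (B : GenBase M Γ (GenField.ofRat S₀ hj)) (X : GenExpansion B)

/-- the ring hom `K[S₀] → ℂ((z))`, `r ↦ E (e r ∘ g⁻¹)` -/
def sGK (g : SL(2, ℤ)) : RK K S₀ →+* LaurentSeries ℂ :=
  X.E.comp ((B.compH g⁻¹).comp (bridgeK ι B))

theorem sGK_apply (g : SL(2, ℤ)) (r : RK K S₀) :
    sGK ι B X g r = X.E (B.compH g⁻¹ (bridgeK ι B r)) := rfl

theorem sGK_injective (g : SL(2, ℤ)) : Function.Injective (sGK ι B X g) :=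
  X.inj.comp ((B.compH_injective g⁻¹).comp (bridgeK_injective ι B))

/-- the embedding `K·ℚ(S₀) → ℂ((z))` attached to `g` -/
def sigmaGK (g : SL(2, ℤ)) : FK K S₀ →+* LaurentSeries ℂ :=
  liftFK (sGK ι B X g) (sGK_injective ι B X g)

theorem sigmaGK_inclRK (g : SL(2, ℤ)) (r : RK K S₀) :
    sigmaGK ι B X g (inclRK K S₀ r) = X.E (B.compH g⁻¹ (bridgeK ι B r)) :=
  liftFK_inclRK _ _ r

theorem sigmaGK_algebraMap (g : SL(2, ℤ)) (c : K) :
    sigmaGK ι B X g (algebraMap K (FK K S₀) c) = HahnSeries.C (ι c) := by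
  rw [sigmaGK, liftFK_algebraMap, sGK_apply, bridgeK_algebraMap, GenBase.compH_constH, X.const]

theorem sigmaGK_genFK (g : SL(2, ℤ)) {s : LaurentSeries ℚ} (hs : s ∈ S₀) :
    sigmaGK ι B X g (genFK K hs) = X.E (B.compH g⁻¹ (GHK B hs)) := by
  rw [← inclRK_genRK, sigmaGK_inclRK, bridgeK_genRK]

theorem sigmaGK_jFK (g : SL(2, ℤ)) :
    sigmaGK ι B X g (jFK K hj) = X.E B.JH := by
  rw [jFK, sigmaGK_genFK]
  show X.E (B.compH g⁻¹ B.JH) = _
  rw [GenBase.compH_JH]

theorem sGK_mul_of_mem (g : SL(2, ℤ)) {δ : SL(2, ℤ)} (hδ : δ ∈ Γ) :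
    sGK ι B X (g * δ) = sGK ι B X g := by
  ext1 r
  rw [sGK_apply, sGK_apply, mul_inv_rev, GenBase.compH_mul,
    compH_bridgeK_of_mem ι B (inv_mem hδ)]

theorem sigmaGK_mul_of_mem (g : SL(2, ℤ)) {δ : SL(2, ℤ)}
    (hδ : δ ∈ Γ) : sigmaGK ι B X (g * δ) = sigmaGK ι B X g := by
  unfold sigmaGK
  congr 1
  exact sGK_mul_of_mem ι B X g hδ

theorem sigmaGK_eq_of_mk_eq {g g' : SL(2, ℤ)}
    (h : (g : XG Γ) = (g' : XG Γ)) : sigmaGK ι B X g = sigmaGK ι B X g' := by
  have hmem : g⁻¹ * g' ∈ Γ := QuotientGroup.eq.mp h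
  have := sigmaGK_mul_of_mem ι B X g hmem
  rw [mul_inv_cancel_left] at this
  exact this.symm

/-- the embedding attached to a coset -/
def sigmaXK (x : XG Γ) : FK K S₀ →+* LaurentSeries ℂ := sigmaGK ι B X (Quotient.out x)

theorem sigmaXK_mk (g : SL(2, ℤ)) : sigmaXK ι B X (g : XG Γ) = sigmaGK ι B X g :=
  sigmaGK_eq_of_mk_eq ι B X (QuotientGroup.out_eq' _)

theorem sigmaXK_injective : Function.Injective (sigmaXK (K := K) ι B X) := by
  intro x y hxy
  obtain ⟨g, rfl⟩ := QuotientGroup.mk_surjective x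
  obtain ⟨g', rfl⟩ := QuotientGroup.mk_surjective y
  rw [sigmaXK_mk, sigmaXK_mk] at hxy
  apply QuotientGroup.eq.mpr
  apply B.G_distinct
  rintro _ ⟨s, hs, rfl⟩ τ
  have h1 := congrArg (fun σ => σ (genFK K hs)) hxy
  simp only [sigmaGK_genFK] at h1
  have h2 := X.inj h1
  have h3 := congrArg (fun h : B.Hol => (h : ℍ → ℂ) (g' • τ)) h2
  simp only [GenBase.compH_apply] at h3
  rw [← mul_smul, ← mul_smul, inv_mul_cancel, one_smul] at h3
  exact h3

theorem rotRel_sigmaGK (ε : SL(2, ℤ)) (R : GenRotData B X ε) (g : SL(2, ℤ)) (f : FK K S₀) :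
    RotRel R.ζ (sigmaGK ι B X g f) (sigmaGK ι B X (ε⁻¹ * g) f) := by
  have hζ : R.ζ ≠ 0 := R.hζ.ne_zero R.m_pos.ne'
  obtain ⟨r, t, -, rfl⟩ := exists_div_inclRK K S₀ f
  rw [map_div₀, map_div₀]
  have key : ∀ r : RK K S₀, RotRel R.ζ (sigmaGK ι B X g (inclRK K S₀ r))
      (sigmaGK ι B X (ε⁻¹ * g) (inclRK K S₀ r)) := by
    intro r
    rw [sigmaGK_inclRK, sigmaGK_inclRK, mul_inv_rev, inv_inv, GenBase.compH_mul]
    exact R.rot _
  exact (key r).div hζ (key t)

/-- `LocalData` over `K` from an expansion with rotation data. -/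
def mkLocalDataK (ε : SL(2, ℤ)) (R : GenRotData B X ε) (t : FK K S₀) (u : LaurentSeries ℂ)
    (ht : ∀ g : SL(2, ℤ), sigmaGK ι B X g t = u) (hu : u.order = (R.m : ℤ)) :
    LocalData K (FK K S₀) ℂ (XG Γ) t where
  m := R.m
  m_pos := R.m_pos
  ζ := R.ζ
  hζ := R.hζ
  ι := ι
  perm := permG Γ ε⁻¹
  σ := sigmaXK ι B X
  σ_inj := sigmaXK_injective ι B X
  σ_const x c := sigmaGK_algebraMap ι B X _ c
  σ_t_eq x y := by
    show sigmaGK ι B X _ t = sigmaGK ι B X _ t
    rw [ht, ht]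
  σ_t_order x := by
    show (sigmaGK ι B X _ t).order = _
    rw [ht, hu]
  σ_perm_order x f := by
    obtain ⟨g, rfl⟩ := QuotientGroup.mk_surjective x
    have h : permG Γ ε⁻¹ (g : XG Γ) = ((ε⁻¹ * g : SL(2, ℤ)) : XG Γ) := rfl
    rw [h, sigmaXK_mk, sigmaXK_mk]
    exact (rotRel_sigmaGK ι B X ε R g f).1
  σ_perm_leadingCoeff x f := by
    obtain ⟨g, rfl⟩ := QuotientGroup.mk_surjective x
    have h : permG Γ ε⁻¹ (g : XG Γ) = ((ε⁻¹ * g : SL(2, ℤ)) : XG Γ) := rfl
    rw [h, sigmaXK_mk, sigmaXK_mk]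
    exact (rotRel_sigmaGK ι B X ε R g f).2

end Local

end Fermat.Agent.S48.H642
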