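import Fermat.Agent.S48.H642.KBridge
import Fermat.Agent.S48.H642.DictGen

/-!
# Tower A1 / A1-KUM, leaf `k3`, input DTO — DICT over an arbitrary coefficient field (helper642)

K-generic version of `DictGen.lean` on top of `KBridge.lean`: for `A : GenCore M Γ (ofRat S₀)`,
any algebraically closed field `K ⊇ ℚ` with `ι : K →+* ℂ` and the degree bound
`[K·ℚ(S₀) : K(j)] ≤ |SL₂(ℤ)/Γ|`:

`dvd_ord_of_analytic_pow_K` : if `r, s ∈ K[S₀]` are nonzero, `h₁, h₂ ∈ Hol` nonzero with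
`e(r) · h₂ ^ p = c · h₁ ^ p · e(s)` and `h₁ / h₂` is invariant under every element of `Γ` of finite
order or of trace `2`, then `p ∣ ord_v (r / s)` at EVERY place `v` of `K·ℚ(S₀)` over `K`.
-/

set_option autoImplicit false
set_option linter.style.haveILetI false
set_option linter.unusedSectionVars false
set_option linter.unusedVariables false

noncomputable section

open AlgebraicCurve HahnSeries ModularCurve
open scoped MatrixGroups

namespace Fermat.Agent.S48.H642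

open Fermat.Agent.S24 Fermat.Agent.S24.H997 Fermat.Agent.S24.Deg457 Fermat.Agent.S48.H332
  Fermat.Agent.S29.H389

variable {K : Type*} [Field K] [Algebra ℚ K] (ι : K →+* ℂ)
variable {M : ℕ} [NeZero M] {Γ : Subgroup SL(2, ℤ)} {S₀ : Set (LaurentSeries ℚ)} {hj : jq ∈ S₀}

/-! ### Point data and the degree -/

theorem sigmaGK_sub (A : GenCore M Γ (GenField.ofRat S₀ hj)) {a : K} {ε : SL(2, ℤ)}
    (Q : GenPointData A.toGenBase (ι a) ε) (g : SL(2, ℤ)) :
    sigmaGK ι A.toGenBase Q.X g (jFK K hj - algebraMap K (FK K S₀) a)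
      = Q.X.E (A.toGenBase.JH - A.toGenBase.constH (ι a)) := by
  rw [map_sub, sigmaGK_jFK, sigmaGK_algebraMap, map_sub, Q.X.const]

/-- all the embeddings `σ_x` agree on `K(j)` -/
theorem sigmaXK_eq_on_adjoin (B : GenBase M Γ (GenField.ofRat S₀ hj)) (X : GenExpansion B)
    (x y : XG Γ) {f : FK K S₀} (hf : f ∈ IntermediateField.adjoin K {jFK K hj}) :
    sigmaXK ι B X x f = sigmaXK ι B X y f := by
  induction hf using IntermediateField.adjoin_induction with
  | mem z hz =>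
      rw [Set.mem_singleton_iff] at hz
      subst hz
      show sigmaGK ι B X _ (jFK K hj) = sigmaGK ι B X _ (jFK K hj)
      rw [sigmaGK_jFK, sigmaGK_jFK]
  | algebraMap c =>
      show sigmaGK ι B X _ _ = sigmaGK ι B X _ _
      rw [sigmaGK_algebraMap, sigmaGK_algebraMap]
  | add z w _ _ hz hw => rw [map_add, map_add, hz, hw]
  | inv z _ hz => rw [map_inv₀, map_inv₀, hz]
  | mul z w _ _ hz hw => rw [map_mul, map_mul, hz, hw]

include ι in
/-- lower bound for the degree: `|SL₂(ℤ)/Γ| ≤ [K·ℚ(S₀) : K(j)]`. -/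
theorem card_le_finrankK (B : GenBase M Γ (GenField.ofRat S₀ hj))
    [FiniteDimensional ↥(IntermediateField.adjoin K {jFK K hj}) (FK K S₀)] :
    Nat.card (XG Γ) ≤ Module.finrank ↥(IntermediateField.adjoin K {jFK K hj}) (FK K S₀) := by
  classical
  set E := IntermediateField.adjoin K {jFK K hj} with hE
  let X := B.qexpExpansion
  let x0 : XG Γ := ((1 : SL(2, ℤ)) : XG Γ)
  let ψ : ↥E →+* LaurentSeries ℂ := (sigmaXK ι B X x0).comp (algebraMap ↥E (FK K S₀))
  letI : Algebra ↥E (LaurentSeries ℂ) := ψ.toAlgebra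
  let a : XG Γ → (FK K S₀ →ₐ[↥E] LaurentSeries ℂ) := fun x =>
    { sigmaXK ι B X x with
      commutes' := fun y => sigmaXK_eq_on_adjoin ι B X x x0 y.2 }
  have ha : Function.Injective a := by
    intro x y hxy
    apply sigmaXK_injective ι B X
    refine RingHom.ext fun f => ?_
    exact congrArg (fun φ : FK K S₀ →ₐ[↥E] LaurentSeries ℂ => φ f) hxy
  haveI : Module.Free ↥E (FK K S₀) := Module.Free.of_divisionRing ↥E (FK K S₀)
  haveI : Module.Finite ↥E (FK K S₀) := ‹FiniteDimensional ↥E (FK K S₀)›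
  haveI : Finite (FK K S₀ →ₐ[↥E] LaurentSeries ℂ) :=
    Finite.algHom ↥E (FK K S₀) (LaurentSeries ℂ)
  calc Nat.card (XG Γ) ≤ Nat.card (FK K S₀ →ₐ[↥E] LaurentSeries ℂ) :=
        Nat.card_le_card_of_injective a ha
    _ ≤ Module.finrank ↥E (FK K S₀) := card_algHom_le_finrank ↥E (FK K S₀) (LaurentSeries ℂ)

/-! ### The local statement -/

/-- **DICT over `K`, local form.** -/
theorem dvd_ord_mkLocalData_K (B : GenBase M Γ (GenField.ofRat S₀ hj)) (X : GenExpansion B)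
    (ε : SL(2, ℤ)) (R : GenRotData B X ε) (t : FK K S₀) (u : LaurentSeries ℂ)
    (ht : ∀ g : SL(2, ℤ), sigmaGK ι B X g t = u) (hu : u.order = (R.m : ℤ))
    [IsAlgClosed K] [CharZero K] [Finite (XG Γ)] [FiniteDimensional ↥(IntermediateField.adjoin K {t}) (FK K S₀)]
    (hrank : Module.finrank ↥(IntermediateField.adjoin K {t}) (FK K S₀) = Nat.card (XG Γ))
    (hε : ∀ n : ℕ, Nice (ε ^ n))
    (p : ℕ) (r s : RK K S₀) (hr : r ≠ 0) (hs : s ≠ 0) (h₁ h₂ : B.Hol) (hh₁ : h₁ ≠ 0)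
    (hh₂ : h₂ ≠ 0) (c : ℂ) (hc : c ≠ 0)
    (hrel : bridgeK ι B r * h₂ ^ p = B.constH c * h₁ ^ p * bridgeK ι B s)
    (hinv : ∀ δ : SL(2, ℤ), δ ∈ Γ → Nice δ →
      B.compH δ h₁ * h₂ = h₁ * B.compH δ h₂)
    (v : Place K (FK K S₀)) (hv : 0 < v.ord t) :
    (p : ℤ) ∣ v.ord (inclRK K S₀ r / inclRK K S₀ s) := by
  classical
  set L := mkLocalDataK ι B X ε R t u ht hu with hL
  obtain ⟨x, hx⟩ :=
    H117.exists_placeOf_eq L (IntermediateField.adjoin K {t}) le_rfl hrank v hv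
  obtain ⟨g, rfl⟩ := QuotientGroup.mk_surjective x
  have hσ : L.σ (g : XG Γ) = sigmaGK ι B X g := sigmaXK_mk ι B X g
  -- translated functions
  set h₁' := B.compH g⁻¹ h₁ with hh₁'
  set h₂' := B.compH g⁻¹ h₂ with hh₂'
  have hE₁ : X.E h₁' ≠ 0 := by
    intro h0
    apply hh₁
    apply B.compH_injective g⁻¹
    apply X.inj
    rw [h0, map_zero, map_zero]
  have hE₂ : X.E h₂' ≠ 0 := by
    intro h0
    apply hh₂
    apply B.compH_injective g⁻¹
    apply X.inj
    rw [h0, map_zero, map_zero]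
  set k₁ := (X.E h₁').order with hk₁
  set k₂ := (X.E h₂').order with hk₂
  -- the relation, expanded
  have hrel' : sigmaGK ι B X g (inclRK K S₀ r) * (X.E h₂') ^ p
      = HahnSeries.C c * (X.E h₁') ^ p * sigmaGK ι B X g (inclRK K S₀ s) := by
    rw [sigmaGK_inclRK, sigmaGK_inclRK]
    have := congrArg (fun z => X.E (B.compH g⁻¹ z)) hrel
    simp only [map_mul, map_pow, B.compH_constH, X.const] at this
    exact this
  have hr' : inclRK K S₀ r ≠ 0 := fun h => hr (inclRK_injective K S₀ (by rw [h, map_zero]))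
  have hs' : inclRK K S₀ s ≠ 0 := fun h => hs (inclRK_injective K S₀ (by rw [h, map_zero]))
  have hσr : sigmaGK ι B X g (inclRK K S₀ r) ≠ 0 := (map_ne_zero _).mpr hr'
  have hσs : sigmaGK ι B X g (inclRK K S₀ s) ≠ 0 := (map_ne_zero _).mpr hs'
  have hC : (HahnSeries.C c : LaurentSeries ℂ) ≠ 0 := by
    intro h0
    apply hc
    have := congrArg (fun z : LaurentSeries ℂ => z.coeff 0) h0
    simpa using this
  have hord : (sigmaGK ι B X g (inclRK K S₀ r / inclRK K S₀ s)).order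
      = (p : ℤ) * (k₁ - k₂) := by
    have h1 := congrArg HahnSeries.order hrel'
    rw [ls_order_mul hσr (pow_ne_zero p hE₂), ls_order_pow hE₂,
      ls_order_mul (mul_ne_zero hC (pow_ne_zero p hE₁)) hσs,
      ls_order_mul hC (pow_ne_zero p hE₁), ls_order_pow hE₁, ls_order_C] at h1
    rw [map_div₀, div_eq_mul_inv, ls_order_mul hσr (inv_ne_zero hσs),
      RotRel.order_inv' hσs]
    linarith
  -- multiplicity
  have hmult := H117.order_eq L (g : XG Γ) (inclRK K S₀ r / inclRK K S₀ s)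
  rw [hσ, hord, hx] at hmult
  -- orbit length
  have hfin := H117.finite_places_over L (IntermediateField.adjoin K {t}) le_rfl hrank
  have hS : ∀ w : Place K (FK K S₀), w ∈ hfin.toFinset ↔ 0 < w.ord t := fun w => by
    simp
  have hsum := H144.loc_fundamental_inequality L hfin.toFinset hS
  obtain ⟨-, horb, -⟩ :=
    H117.localThm L (IntermediateField.adjoin K {t}) le_rfl hrank hfin.toFinset hS hsum
  have hn := horb (g : XG Γ)
  rw [hx] at hn
  set n := Nat.card (MulAction.orbit (Subgroup.zpowers L.perm) (g : XG Γ)) with hn_def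
  have hnpos : 0 < n := by
    have : (0 : ℤ) < n := by rw [hn]; exact hv
    exact_mod_cast this
  -- `perm ^ n` fixes `x`
  have hper : (L.perm ^ n) (g : XG Γ) = (g : XG Γ) := by
    letI : Fintype (MulAction.orbit (Subgroup.zpowers L.perm) (g : XG Γ)) :=
      Fintype.ofFinite _
    have h1 : Function.minimalPeriod (L.perm • ·) (g : XG Γ) = n := by
      rw [MulAction.minimalPeriod_eq_card, hn_def, Nat.card_eq_fintype_card]
    have h2 := Function.isPeriodicPt_minimalPeriod (L.perm • ·) (g : XG Γ)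
    rw [h1] at h2
    have h3 : ((L.perm • ·) : XG Γ → XG Γ) = ⇑L.perm := rfl
    rw [h3] at h2
    have h4 : (⇑L.perm)^[n] (g : XG Γ) = (g : XG Γ) := h2
    rw [Equiv.Perm.iterate_eq_pow] at h4
    exact h4
  -- the element `δ = g⁻¹ ε ^ n g` of `Γ`
  have hperm_pow : (L.perm ^ n) (g : XG Γ) = (((ε⁻¹) ^ n * g : SL(2, ℤ)) : XG Γ) := by
    have h1 : L.perm = permG Γ ε⁻¹ := rfl
    rw [h1]
    have h2 : (permG Γ ε⁻¹) ^ n = permG Γ ((ε⁻¹) ^ n) := by
      unfold permG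
      exact (map_pow (MulAction.toPermHom SL(2, ℤ) (XG Γ)) ε⁻¹ n).symm
    rw [h2]
    rfl
  have hδmem : g⁻¹ * ε ^ n * g ∈ Γ := by
    have h1 := hper
    rw [hperm_pow] at h1
    have h2 := QuotientGroup.eq.mp h1
    have h3 : ((ε⁻¹) ^ n * g)⁻¹ * g = g⁻¹ * ε ^ n * g := by
      rw [mul_inv_rev, inv_pow, inv_inv]
    rwa [h3] at h2
  have hδnice : Nice (g⁻¹ * ε ^ n * g) := (hε n).conj g
  have hinv' := hinv _ hδmem hδnice
  -- transport by `g⁻¹`
  have hcomp : ∀ h : B.Hol, B.compH g⁻¹ (B.compH (g⁻¹ * ε ^ n * g) h)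
      = B.compH (ε ^ n) (B.compH g⁻¹ h) := by
    intro h
    rw [← B.compH_mul, ← B.compH_mul]
    congr 1
    group
  have hrot : B.compH (ε ^ n) h₁' * h₂' = h₁' * B.compH (ε ^ n) h₂' := by
    have := congrArg (B.compH g⁻¹) hinv'
    rw [map_mul, map_mul, hcomp, hcomp] at this
    exact this
  have hlc := congrArg (fun z => (X.E z).leadingCoeff) hrot
  simp only [map_mul, leadingCoeff_mul] at hlc
  rw [(rot_iter_gen B X ε R n h₁').2, (rot_iter_gen B X ε R n h₂').2] at hlc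
  have hl₁ : (X.E h₁').leadingCoeff ≠ 0 := leadingCoeff_ne_zero.mpr hE₁
  have hl₂ : (X.E h₂').leadingCoeff ≠ 0 := leadingCoeff_ne_zero.mpr hE₂
  have hζ0 : R.ζ ≠ 0 := R.hζ.ne_zero R.m_pos.ne'
  have hζeq : (R.ζ ^ k₁) ^ n = (R.ζ ^ k₂) ^ n := by
    have h1 : (R.ζ ^ k₁) ^ n * ((X.E h₁').leadingCoeff * (X.E h₂').leadingCoeff)
        = (R.ζ ^ k₂) ^ n * ((X.E h₁').leadingCoeff * (X.E h₂').leadingCoeff) := by
      linear_combination hlc
    exact mul_right_cancel₀ (mul_ne_zero hl₁ hl₂) h1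
  have hζ1 : R.ζ ^ ((n : ℤ) * (k₁ - k₂)) = 1 := by
    have h1 : R.ζ ^ ((n : ℤ) * k₁) = R.ζ ^ ((n : ℤ) * k₂) := by
      rw [mul_comm (n : ℤ) k₁, mul_comm (n : ℤ) k₂, zpow_mul, zpow_mul, zpow_natCast,
        zpow_natCast]
      exact hζeq
    rw [mul_sub, zpow_sub₀ hζ0, h1]
    exact div_self (zpow_ne_zero _ hζ0)
  have hdvd : ((R.m : ℕ) : ℤ) ∣ (n : ℤ) * (k₁ - k₂) := (R.hζ.zpow_eq_one_iff_dvd _).mp hζ1
  have hmm := H117.mult_mul_ord_t L (g : XG Γ)
  rw [hx, ← hn] at hmm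
  have hLm : L.m = R.m := rfl
  rw [hLm] at hmm
  rw [← hmm] at hdvd
  have hn0 : (n : ℤ) ≠ 0 := by exact_mod_cast hnpos.ne'
  have hdvd' : (H117.mult L (g : XG Γ) : ℤ) ∣ (k₁ - k₂) := by
    rw [mul_comm] at hdvd
    exact (mul_dvd_mul_iff_left hn0).mp hdvd
  obtain ⟨q, hq⟩ := hdvd'
  refine ⟨q, ?_⟩
  have hm0 : (H117.mult L (g : XG Γ) : ℤ) ≠ 0 := by
    exact_mod_cast (H117.mult_pos L (g : XG Γ)).ne'
  rw [hq] at hmult
  have : (H117.mult L (g : XG Γ) : ℤ) * ((p : ℤ) * q)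
      = (H117.mult L (g : XG Γ) : ℤ) * v.ord (inclRK K S₀ r / inclRK K S₀ s) := by
    rw [← hmult]; ring
  exact (mul_left_cancel₀ hm0 this).symm

/-! ### The global statement -/

/-- **DICT over `K`.**  Let `A` be a generic analytic core for `(M, Γ, ℚ̄(S₀))`, `K ⊇ ℚ`
algebraically closed with `ι : K →+* ℂ`, and assume `[K·ℚ(S₀) : K(j)] ≤ |SL₂(ℤ)/Γ|`.  Let
`r, s ∈ K[S₀]` be nonzero and `h₁, h₂ ∈ Hol` nonzero with `e(r) · h₂ ^ p = c · h₁ ^ p · e(s)`,
`c ≠ 0`, and suppose `h₁ / h₂` is invariant under every element of `Γ` of finite order or of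
trace `2`.  Then `p` divides the order of `r / s` at EVERY place of `K·ℚ(S₀)` over `K`. -/
theorem dvd_ord_of_analytic_pow_K [IsAlgClosed K] [CharZero K] [Finite (XG Γ)]
    (A : GenCore M Γ (GenField.ofRat S₀ hj))
    (hfd : FiniteDimensional ↥(IntermediateField.adjoin K {jFK K hj}) (FK K S₀))
    (hle : Module.finrank ↥(IntermediateField.adjoin K {jFK K hj}) (FK K S₀)
      ≤ Nat.card (XG Γ))
    (p : ℕ) (r s : RK K S₀) (hr : r ≠ 0)
    (hs : s ≠ 0) (h₁ h₂ : A.toGenBase.Hol) (hh₁ : h₁ ≠ 0) (hh₂ : h₂ ≠ 0) (c : ℂ) (hc : c ≠ 0)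
    (hrel : bridgeK ι A.toGenBase r * h₂ ^ p
      = A.toGenBase.constH c * h₁ ^ p * bridgeK ι A.toGenBase s)
    (hinv : ∀ δ : SL(2, ℤ), δ ∈ Γ → Nice δ →
      A.toGenBase.compH δ h₁ * h₂ = h₁ * A.toGenBase.compH δ h₂)
    (v : Place K (FK K S₀)) :
    (p : ℤ) ∣ v.ord (inclRK K S₀ r / inclRK K S₀ s) := by
  classical
  haveI := hfd
  have hrank : Module.finrank ↥(IntermediateField.adjoin K {jFK K hj}) (FK K S₀)
      = Nat.card (XG Γ) := le_antisymm hle (card_le_finrankK ι A.toGenBase)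
  by_cases hjv : 0 ≤ v.ord (jFK K hj)
  · haveI : Algebra.IsAlgebraic ↥(IntermediateField.adjoin K {jFK K hj}) (FK K S₀) :=
      Algebra.IsAlgebraic.of_finite _ _
    obtain ⟨a, ha⟩ := FF.exists_ord_sub_pos v (jFK K hj) hjv
    obtain ⟨hfd', hfr⟩ :=
      finiteDimensional_and_finrank_of_eq (adjoin_sub_algebraMap K (jFK K hj) a)
    haveI := hfd'
    have hr' := hfr.trans hrank
    have key : ∀ (ε : SL(2, ℤ)) (Q : GenPointData A.toGenBase (ι a) ε),
        (∀ n : ℕ, Nice (ε ^ n)) → (p : ℤ) ∣ v.ord (inclRK K S₀ r / inclRK K S₀ s) :=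
      fun ε Q hε =>
      dvd_ord_mkLocalData_K ι A.toGenBase Q.X ε Q.R _ _ (fun g => sigmaGK_sub ι A Q g)
        Q.order_J hr' hε p r s hr hs h₁ h₂ hh₁ hh₂ c hc hrel hinv v ha
    by_cases h0 : ι a = 0
    · exact key (ModularGroup.S * ModularGroup.T) (by rw [h0]; exact A.at0) nice_pow_ST
    · by_cases h1 : ι a = 1728
      · exact key ModularGroup.S (by rw [h1]; exact A.at1728) nice_pow_S
      · exact key 1 (A.generic (ι a) h0 h1) nice_pow_one
  · have hjinv : 0 < v.ord (jFK K hj)⁻¹ := by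
      rw [Place.ord_inv]
      omega
    obtain ⟨hfd', hfr⟩ := finiteDimensional_and_finrank_of_eq (adjoin_inv K (jFK K hj))
    haveI := hfd'
    have hr' := hfr.trans hrank
    exact dvd_ord_mkLocalData_K ι A.toGenBase A.toGenBase.qexpExpansion ModularGroup.T A.infRot
      (jFK K hj)⁻¹ (A.qexp A.toGenBase.JH)⁻¹
      (fun g => by rw [map_inv₀, sigmaGK_jFK]; rfl)
      (by
        rw [RotRel.order_inv' A.toGenBase.qexp_JH_ne_zero, A.toGenBase.order_qexp_JH,
          neg_neg]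
        rfl)
      hr' nice_pow_T p r s hr hs h₁ h₂ hh₁ hh₂ c hc hrel hinv v hjinv

end Fermat.Agent.S48.H642
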